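import Mathlib

/-!
# S16 / WP INV (helper944): one-dimensional Gaussian sums, uniform bounds

`exists_bound_gauss_shift`: for `A > 0` and `B` real, the sums
`∑_{n ∈ ℤ} exp (-A (n + c)² + B (n + c))` are bounded uniformly in the real shift `c`.
-/

namespace Fermat.Agent.S16.H944

open Real

/-- the dominating family for shifted Gaussian sums. -/
noncomputable def gaussDom (A B : ℝ) (n : ℤ) : ℝ :=
  Real.exp (|B|) * Real.exp (-π * (A / (4 * π) * (n : ℝ) ^ 2 - 2 * (|B| / (2 * π)) * (|n| : ℤ)))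

lemma gaussDom_nonneg (A B : ℝ) (n : ℤ) : 0 ≤ gaussDom A B n := by
  unfold gaussDom; positivity

lemma summable_gaussDom {A : ℝ} (hA : 0 < A) (B : ℝ) : Summable (gaussDom A B) := by
  have h := summable_pow_mul_jacobiTheta₂_term_bound (|B| / (2 * π))
    (T := A / (4 * π)) (by positivity) 0
  simp only [pow_zero, one_mul] at h
  exact h.mul_left _

lemma int_add_sq_ge (n : ℤ) {c : ℝ} (hc : |c| ≤ 1 / 2) :
    (n : ℝ) ^ 2 / 4 ≤ ((n : ℝ) + c) ^ 2 := by
  rcases eq_or_ne n 0 with rfl | hn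
  · simp; positivity
  · have h1 : (1 : ℝ) ≤ |(n : ℝ)| := by
      have : (1 : ℤ) ≤ |n| := Int.one_le_abs hn
      exact_mod_cast this
    have h2 : |(n : ℝ)| / 2 ≤ |(n : ℝ) + c| := by
      have := abs_sub_abs_le_abs_sub (n : ℝ) (-c)
      rw [sub_neg_eq_add, abs_neg] at this
      linarith
    have h3 : (|(n : ℝ)| / 2) ^ 2 ≤ |(n : ℝ) + c| ^ 2 :=
      pow_le_pow_left₀ (by positivity) h2 2
    rw [sq_abs, div_pow, sq_abs] at h3
    linarith

lemma gauss_le_gaussDom {A : ℝ} (hA : 0 < A) (B : ℝ) (n : ℤ) {c : ℝ} (hc : |c| ≤ 1 / 2) :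
    Real.exp (-A * ((n : ℝ) + c) ^ 2 + B * ((n : ℝ) + c)) ≤ gaussDom A B n := by
  unfold gaussDom
  rw [← Real.exp_add, Real.exp_le_exp]
  have h1 := int_add_sq_ge n hc
  have h2 : B * ((n : ℝ) + c) ≤ |B| * (|(n : ℝ)| + 1 / 2) := by
    calc B * ((n : ℝ) + c) ≤ |B * ((n : ℝ) + c)| := le_abs_self _
      _ = |B| * |(n : ℝ) + c| := abs_mul _ _
      _ ≤ |B| * (|(n : ℝ)| + 1 / 2) := by
          gcongr
          exact (abs_add_le _ _).trans (by linarith)
  have h3 : (0 : ℝ) ≤ |B| := abs_nonneg _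
  have hpi : (π : ℝ) ≠ 0 := Real.pi_ne_zero
  have e : -π * (A / (4 * π) * (n : ℝ) ^ 2 - 2 * (|B| / (2 * π)) * ((|n| : ℤ) : ℝ))
      = -A * ((n : ℝ) ^ 2 / 4) + |B| * |(n : ℝ)| := by
    push_cast
    field_simp
    ring
  rw [e]
  nlinarith

/-- **Uniform bound for shifted one-dimensional Gaussian sums.** -/
theorem exists_bound_gauss_shift {A : ℝ} (hA : 0 < A) (B : ℝ) :
    ∃ K : ℝ, 0 ≤ K ∧ ∀ c : ℝ,
      Summable (fun n : ℤ => Real.exp (-A * ((n : ℝ) + c) ^ 2 + B * ((n : ℝ) + c))) ∧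
      ∑' n : ℤ, Real.exp (-A * ((n : ℝ) + c) ^ 2 + B * ((n : ℝ) + c)) ≤ K := by
  refine ⟨∑' n, gaussDom A B n, tsum_nonneg (gaussDom_nonneg A B), fun c => ?_⟩
  set m : ℤ := round c with hm
  set c₀ : ℝ := c - m with hc₀
  have hc : |c₀| ≤ 1 / 2 := abs_sub_round c
  set f : ℤ → ℝ := fun n => Real.exp (-A * ((n : ℝ) + c₀) ^ 2 + B * ((n : ℝ) + c₀)) with hf
  have hfs : Summable f :=
    Summable.of_nonneg_of_le (fun n => (Real.exp_pos _).le)
      (fun n => gauss_le_gaussDom hA B n hc) (summable_gaussDom hA B)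
  have hfle : ∑' n, f n ≤ ∑' n, gaussDom A B n :=
    hfs.tsum_le_tsum (fun n => gauss_le_gaussDom hA B n hc) (summable_gaussDom hA B)
  have key : (fun n : ℤ => Real.exp (-A * ((n : ℝ) + c) ^ 2 + B * ((n : ℝ) + c)))
      = f ∘ (Equiv.addRight m) := by
    funext n
    simp only [hf, Function.comp_apply, Equiv.coe_addRight, Int.cast_add, hc₀]
    congr 2 <;> ring
  rw [key]
  refine ⟨(Equiv.summable_iff _).mpr hfs, ?_⟩
  rw [show ∑' n, (f ∘ (Equiv.addRight m)) n = ∑' n, f n from (Equiv.addRight m).tsum_eq f]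
  exact hfle

end Fermat.Agent.S16.H944
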