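import Fermat.Agent.S16.H944.GaussTriNorm

/-!
# S16 / WP INV (helper944): Poisson summation for triangular Gaussian sums

`gauss_tri`: for a positive definite quadratic form in triangular form `(d, l)`, `a` with
`0 < re a` and arbitrary complex `b`,
`∑_x exp (-π a Q(x) + 2π b·x) = ∏ i, (a d i)^(-1/2) * ∑_w exp (-(π/a) Q*(w + i b))`,
by induction on the number of variables from Mathlib's `Complex.tsum_exp_neg_quadratic`.
-/

namespace Fermat.Agent.S16.H944

open Real Complex

noncomputable section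

/-- the one-variable dual Gaussian factor. -/
def gaussFac (a' : ℂ) (b0 : ℂ) (w0 : ℤ) : ℂ := cexp (-π / a' * ((w0 : ℂ) + I * b0) ^ 2)

lemma summable_norm_gaussFac {d0 : ℝ} (hd0 : 0 < d0) {a : ℂ} (ha : 0 < a.re) (b0 : ℂ) :
    Summable (fun w0 : ℤ => ‖gaussFac (a * d0) b0 w0‖) := by
  have h := (summable_dualTerm 1 (fun _ => d0) (fun _ _ => 0) (fun _ => hd0) ha
    (fun _ => b0)).norm
  have e := (Equiv.funUnique (Fin 1) ℤ).symm.summable_iff.mpr h
  refine e.congr fun w0 => ?_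
  simp only [Function.comp_apply, dualTerm, triQdC, gaussFac, add_zero]
  congr 2
  have hd : (d0 : ℂ) ≠ 0 := by exact_mod_cast hd0.ne'
  have ha0 : a ≠ 0 := by rintro rfl; simp at ha
  simp only [Equiv.funUnique_symm_apply, uniqueElim_const]
  field_simp

/-- the modified linear term after summing over the first variable. -/
def bTilde {n : ℕ} (l : Fin (n + 1) → Fin (n + 1) → ℝ) (b : Fin (n + 1) → ℂ) (w0 : ℤ) :
    Fin n → ℂ :=
  fun j => b j.succ + I * ((w0 : ℂ) + I * b 0) * (l 0 j.succ : ℂ)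

lemma primalTerm_cons {n : ℕ} (d : Fin (n + 1) → ℝ) (l : Fin (n + 1) → Fin (n + 1) → ℝ)
    (a : ℂ) (b : Fin (n + 1) → ℂ) (x0 : ℤ) (x' : Fin n → ℤ) :
    primalTerm (n + 1) d l a b (Fin.cons x0 x') =
      cexp (-π * (a * d 0) * (x0 : ℂ) ^ 2
          + 2 * π * (b 0 - a * d 0 * ∑ j : Fin n, (l 0 j.succ : ℂ) * (x' j : ℂ)) * (x0 : ℂ))
        * (cexp (-π * (a * d 0) * (∑ j : Fin n, (l 0 j.succ : ℂ) * (x' j : ℂ)) ^ 2)
          * primalTerm n (fun i => d i.succ) (fun i j => l i.succ j.succ) a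
              (fun j => b j.succ) x') := by
  simp only [primalTerm, triQC, Fin.sum_univ_succ, Fin.cons_zero, Fin.cons_succ, ← Complex.exp_add]
  congr 1
  ring

lemma gaussFac_mul_primalTerm {n : ℕ} (d : Fin (n + 1) → ℝ) (l : Fin (n + 1) → Fin (n + 1) → ℝ)
    {a : ℂ} (ha0 : a ≠ 0) (hd0 : (d 0 : ℂ) ≠ 0) (b : Fin (n + 1) → ℂ) (w0 : ℤ)
    (x' : Fin n → ℤ) :
    cexp (-π / (a * d 0) * ((w0 : ℂ) + I * (b 0 - a * d 0 *
          ∑ j : Fin n, (l 0 j.succ : ℂ) * (x' j : ℂ))) ^ 2)
        * (cexp (-π * (a * d 0) * (∑ j : Fin n, (l 0 j.succ : ℂ) * (x' j : ℂ)) ^ 2)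
          * primalTerm n (fun i => d i.succ) (fun i j => l i.succ j.succ) a
              (fun j => b j.succ) x')
      = gaussFac (a * d 0) (b 0) w0
        * primalTerm n (fun i => d i.succ) (fun i j => l i.succ j.succ) a (bTilde l b w0) x' := by
  simp only [primalTerm, gaussFac, bTilde, ← Complex.exp_add]
  congr 1
  simp only [add_mul, Finset.sum_add_distrib]
  have e : ∑ j : Fin n, I * ((w0 : ℂ) + I * b 0) * (l 0 j.succ : ℂ) * (x' j : ℂ)
      = I * ((w0 : ℂ) + I * b 0) * ∑ j : Fin n, (l 0 j.succ : ℂ) * (x' j : ℂ) := by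
    rw [Finset.mul_sum]
    exact Finset.sum_congr rfl fun j _ => by ring
  rw [e]
  set c : ℂ := ∑ j : Fin n, (l 0 j.succ : ℂ) * (x' j : ℂ)
  have hI : (I : ℂ) ^ 2 = -1 := I_sq
  field_simp
  ring_nf
  rw [hI]
  ring

lemma gaussFac_mul_dualTerm {n : ℕ} (d : Fin (n + 1) → ℝ) (l : Fin (n + 1) → Fin (n + 1) → ℝ)
    {a : ℂ} (ha0 : a ≠ 0) (hd0 : (d 0 : ℂ) ≠ 0) (b : Fin (n + 1) → ℂ) (w0 : ℤ)
    (w' : Fin n → ℤ) :
    gaussFac (a * d 0) (b 0) w0
        * dualTerm n (fun i => d i.succ) (fun i j => l i.succ j.succ) a (bTilde l b w0) w'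
      = dualTerm (n + 1) d l a b (Fin.cons w0 w') := by
  simp only [dualTerm, gaussFac, bTilde, triQdC, Fin.cons_zero, Fin.cons_succ,
    ← Complex.exp_add]
  have e : (fun i : Fin n => (w' i : ℂ) + I * (b i.succ + I * ((w0 : ℂ) + I * b 0) * (l 0 i.succ : ℂ)))
      = fun j => (w' j : ℂ) + I * b j.succ - (l 0 j.succ : ℂ) * ((w0 : ℂ) + I * b 0) := by
    funext j
    have hI : (I : ℂ) * I = -1 := I_mul_I
    linear_combination ((w0 : ℂ) + I * b 0) * (l 0 j.succ : ℂ) * hI
  rw [e]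
  congr 1
  field_simp
  ring

lemma norm_primalTerm_bTilde {n : ℕ} (d : Fin (n + 1) → ℝ) (l : Fin (n + 1) → Fin (n + 1) → ℝ)
    (a : ℂ) (b : Fin (n + 1) → ℂ) (w0 : ℤ) (x' : Fin n → ℤ) :
    ‖primalTerm n (fun i => d i.succ) (fun i j => l i.succ j.succ) a (bTilde l b w0) x'‖
      = ‖primalTerm n (fun i => d i.succ) (fun i j => l i.succ j.succ) a
          (fun j => ((b j.succ).re - (b 0).re * l 0 j.succ : ℝ)) x'‖ := by
  rw [norm_primalTerm, norm_primalTerm]
  congr 3
  refine Finset.sum_congr rfl fun j _ => ?_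
  congr 1
  simp [bTilde, sub_eq_add_neg]

/-- **Poisson summation for triangular Gaussian sums.** -/
theorem gauss_tri : ∀ (n : ℕ) (d : Fin n → ℝ) (l : Fin n → Fin n → ℝ), (∀ i, 0 < d i) →
    ∀ a : ℂ, 0 < a.re → ∀ b : Fin n → ℂ,
      ∑' x : Fin n → ℤ, primalTerm n d l a b x
        = (∏ i, 1 / (a * (d i : ℂ)) ^ (1 / 2 : ℂ)) * ∑' w : Fin n → ℤ, dualTerm n d l a b w
  | 0, _, _, _, _, _, _ => by
      simp [tsum_fintype, primalTerm, dualTerm, triQC, triQdC]
  | n + 1, d, l, hd, a, ha, b => by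
      have ha0 : a ≠ 0 := by rintro rfl; simp at ha
      have hd0 : (d 0 : ℂ) ≠ 0 := by exact_mod_cast (hd 0).ne'
      have ha' : 0 < (a * (d 0 : ℂ)).re := by
        rw [mul_comm, re_ofReal_mul]; exact mul_pos (hd 0) ha
      have hd' : ∀ i : Fin n, 0 < d i.succ := fun i => hd i.succ
      -- abbreviations
      set P' : (Fin n → ℂ) → (Fin n → ℤ) → ℂ :=
        primalTerm n (fun i => d i.succ) (fun i j => l i.succ j.succ) a with hP'
      set D' : (Fin n → ℂ) → (Fin n → ℤ) → ℂ :=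
        dualTerm n (fun i => d i.succ) (fun i j => l i.succ j.succ) a with hD'
      set g : ℤ → ℂ := gaussFac (a * d 0) (b 0) with hg
      set C' : ℂ := ∏ i : Fin n, 1 / (a * (d i.succ : ℂ)) ^ (1 / 2 : ℂ) with hC'
      -- step 1: split the primal sum
      have hS1 : Summable (primalTerm (n + 1) d l a b ∘ consEquiv₂ n) :=
        (consEquiv₂ n).summable_iff.mpr (summable_primalTerm (n + 1) d l hd ha b)
      have step1 : ∑' x : Fin (n + 1) → ℤ, primalTerm (n + 1) d l a b x
          = ∑' x' : Fin n → ℤ, ∑' x0 : ℤ, primalTerm (n + 1) d l a b (Fin.cons x0 x') := by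
        rw [← (consEquiv₂ n).tsum_eq]
        exact hS1.tsum_prod' (fun x' => hS1.prod_factor x')
      -- step 2: one-dimensional Poisson summation in the inner sum
      have step2 : ∀ x' : Fin n → ℤ, ∑' x0 : ℤ, primalTerm (n + 1) d l a b (Fin.cons x0 x')
          = 1 / (a * (d 0 : ℂ)) ^ (1 / 2 : ℂ) * ∑' w0 : ℤ, g w0 * P' (bTilde l b w0) x' := by
        intro x'
        simp_rw [primalTerm_cons]
        rw [tsum_mul_right, Complex.tsum_exp_neg_quadratic ha', mul_assoc, ← tsum_mul_right]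
        congr 1
        exact tsum_congr fun w0 => gaussFac_mul_primalTerm d l ha0 hd0 b w0 x'
      -- step 3: the mixed family is summable
      have hR : Summable (fun x' : Fin n → ℤ =>
          ‖P' (fun j => ((b j.succ).re - (b 0).re * l 0 j.succ : ℝ)) x'‖) :=
        (summable_primalTerm n _ _ hd' ha _).norm
      have hG : Summable (fun w0 : ℤ => ‖g w0‖) := summable_norm_gaussFac (hd 0) ha (b 0)
      have hH : Summable (Function.uncurry fun (w0 : ℤ) (x' : Fin n → ℤ) =>
          g w0 * P' (bTilde l b w0) x') := by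
        refine Summable.of_norm ?_
        refine (Summable.mul_of_nonneg hG hR (fun _ => norm_nonneg _)
          (fun _ => norm_nonneg _)).congr fun p => ?_
        rw [Function.uncurry, norm_mul, norm_primalTerm_bTilde]
      have step3 : ∑' x' : Fin n → ℤ, ∑' w0 : ℤ, g w0 * P' (bTilde l b w0) x'
          = ∑' w0 : ℤ, ∑' x' : Fin n → ℤ, g w0 * P' (bTilde l b w0) x' :=
        hH.tsum_comm' (fun w0 => hH.prod_factor w0)
          (fun x' => (hH.comp_injective (Prod.swap_injective)).prod_factor x')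
      -- step 4: induction hypothesis in the inner sum
      have step4 : ∀ w0 : ℤ, ∑' x' : Fin n → ℤ, g w0 * P' (bTilde l b w0) x'
          = C' * ∑' w' : Fin n → ℤ, dualTerm (n + 1) d l a b (Fin.cons w0 w') := by
        intro w0
        rw [tsum_mul_left, gauss_tri n (fun i => d i.succ) (fun i j => l i.succ j.succ) hd' a ha
          (bTilde l b w0), ← mul_assoc, mul_comm (g w0), mul_assoc, ← tsum_mul_left]
        congr 1
        exact tsum_congr fun w' => gaussFac_mul_dualTerm d l ha0 hd0 b w0 w'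
      -- step 5: recombine the dual sum
      have hS2 : Summable (dualTerm (n + 1) d l a b ∘ consEquiv₁ n) :=
        (consEquiv₁ n).summable_iff.mpr (summable_dualTerm (n + 1) d l hd ha b)
      have step5 : ∑' w : Fin (n + 1) → ℤ, dualTerm (n + 1) d l a b w
          = ∑' w0 : ℤ, ∑' w' : Fin n → ℤ, dualTerm (n + 1) d l a b (Fin.cons w0 w') := by
        rw [← (consEquiv₁ n).tsum_eq]
        exact hS2.tsum_prod' (fun w0 => hS2.prod_factor w0)
      rw [step1, step5, Fin.prod_univ_succ]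
      simp_rw [step2]
      rw [tsum_mul_left, step3]
      simp_rw [step4]
      rw [tsum_mul_left]
      ring

end

end Fermat.Agent.S16.H944
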