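import Fermat.Agent.S16.H944.GaussTriReal

/-!
# S16 / WP INV (helper944): triangular Gaussian sums, complex terms and their norms
-/

namespace Fermat.Agent.S16.H944

open Real Complex

noncomputable section

/-- the triangular quadratic form, complex version. -/
def triQC : (n : ℕ) → (Fin n → ℝ) → (Fin n → Fin n → ℝ) → (Fin n → ℂ) → ℂ
  | 0, _, _, _ => 0
  | n + 1, d, l, x =>
      (d 0 : ℂ) * (x 0 + ∑ j : Fin n, (l 0 j.succ : ℂ) * x j.succ) ^ 2
        + triQC n (fun i => d i.succ) (fun i j => l i.succ j.succ) (fun j => x j.succ)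

/-- the dual of the triangular quadratic form, complex version. -/
def triQdC : (n : ℕ) → (Fin n → ℝ) → (Fin n → Fin n → ℝ) → (Fin n → ℂ) → ℂ
  | 0, _, _, _ => 0
  | n + 1, d, l, v =>
      v 0 ^ 2 / (d 0 : ℂ)
        + triQdC n (fun i => d i.succ) (fun i j => l i.succ j.succ)
            (fun j => v j.succ - (l 0 j.succ : ℂ) * v 0)

lemma triQC_ofReal : ∀ (n : ℕ) (d : Fin n → ℝ) (l : Fin n → Fin n → ℝ) (x : Fin n → ℝ),
    triQC n d l (fun i => (x i : ℂ)) = (triQR n d l x : ℂ)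
  | 0, _, _, _ => by simp [triQC, triQR]
  | n + 1, d, l, x => by
      simp only [triQC, triQR]
      rw [triQC_ofReal n (fun i => d i.succ) (fun i j => l i.succ j.succ) (fun j => x j.succ)]
      push_cast
      ring

lemma triQdC_ofReal : ∀ (n : ℕ) (d : Fin n → ℝ) (l : Fin n → Fin n → ℝ) (x : Fin n → ℝ),
    triQdC n d l (fun i => (x i : ℂ)) = (triQdR n d l x : ℂ)
  | 0, _, _, _ => by simp [triQdC, triQdR]
  | n + 1, d, l, x => by
      simp only [triQdC, triQdR]
      have := triQdC_ofReal n (fun i => d i.succ) (fun i j => l i.succ j.succ)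
        (fun j => x j.succ - l 0 j.succ * x 0)
      push_cast at this ⊢
      rw [this]

/-- the primal term. -/
def primalTerm (n : ℕ) (d : Fin n → ℝ) (l : Fin n → Fin n → ℝ) (a : ℂ) (b : Fin n → ℂ)
    (x : Fin n → ℤ) : ℂ :=
  cexp (-π * a * triQC n d l (fun i => (x i : ℂ)) + 2 * π * ∑ i, b i * (x i : ℂ))

/-- the dual term. -/
def dualTerm (n : ℕ) (d : Fin n → ℝ) (l : Fin n → Fin n → ℝ) (a : ℂ) (b : Fin n → ℂ)
    (w : Fin n → ℤ) : ℂ :=
  cexp (-π / a * triQdC n d l (fun i => (w i : ℂ) + I * b i))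

lemma norm_primalTerm (n : ℕ) (d : Fin n → ℝ) (l : Fin n → Fin n → ℝ) (a : ℂ) (b : Fin n → ℂ)
    (x : Fin n → ℤ) :
    ‖primalTerm n d l a b x‖ = Real.exp (-π * a.re * triQR n d l (fun i => (x i : ℝ))
      + 2 * π * ∑ i, (b i).re * (x i : ℝ)) := by
  have h := triQC_ofReal n d l (fun i => (x i : ℝ))
  simp only [ofReal_intCast] at h
  rw [primalTerm, Complex.norm_exp, h]
  congr 1
  simp only [add_re, mul_re, neg_re, ofReal_re, neg_im, ofReal_im, neg_zero, zero_mul, sub_zero,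
    mul_im, add_zero, re_ofNat, im_ofNat, re_sum, intCast_re, intCast_im, mul_zero]

/-- key algebraic identity for the real part of the dual exponent. -/
lemma re_mul_triQdC : ∀ (n : ℕ) (d : Fin n → ℝ) (l : Fin n → Fin n → ℝ) (s : ℝ)
    (u v : Fin n → ℝ),
    ((1 + (s : ℂ) * I) * triQdC n d l (fun i => (u i : ℂ) + I * (v i : ℂ))).re
      = triQdR n d l (fun i => u i - s * v i) - (1 + s ^ 2) * triQdR n d l v
  | 0, _, _, _, _, _ => by simp [triQdC, triQdR]
  | n + 1, d, l, s, u, v => by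
      simp only [triQdC, triQdR]
      have IH := re_mul_triQdC n (fun i => d i.succ) (fun i j => l i.succ j.succ) s
        (fun j => u j.succ - l 0 j.succ * u 0) (fun j => v j.succ - l 0 j.succ * v 0)
      have e1 : (fun j : Fin n => (u j.succ : ℂ) + I * (v j.succ : ℂ)
            - (l 0 j.succ : ℂ) * ((u 0 : ℂ) + I * (v 0 : ℂ)))
          = fun j => ((u j.succ - l 0 j.succ * u 0 : ℝ) : ℂ)
              + I * ((v j.succ - l 0 j.succ * v 0 : ℝ) : ℂ) := by
        funext j; push_cast; ring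
      have e2 : (fun j : Fin n => u j.succ - s * v j.succ - l 0 j.succ * (u 0 - s * v 0))
          = fun j => (u j.succ - l 0 j.succ * u 0) - s * (v j.succ - l 0 j.succ * v 0) := by
        funext j; ring
      rw [e1, e2, mul_add, add_re, IH]
      have e3 : (1 + (s : ℂ) * I) * (((u 0 : ℂ) + I * (v 0 : ℂ)) ^ 2 / (d 0 : ℂ))
          = (((u 0 ^ 2 - v 0 ^ 2 - 2 * s * u 0 * v 0) / d 0 : ℝ) : ℂ)
            + (((2 * u 0 * v 0 + s * (u 0 ^ 2 - v 0 ^ 2)) / d 0 : ℝ) : ℂ) * I := by
        push_cast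
        have hI : (I : ℂ) ^ 2 = -1 := I_sq
        have hI3 : (I : ℂ) ^ 3 = -I := by rw [pow_succ, hI]; ring
        ring_nf
        rw [hI, hI3]
        ring
      rw [e3]
      simp only [add_re, ofReal_re, mul_re, I_re, mul_zero, ofReal_im, I_im, mul_one, sub_self,
        add_zero]
      ring

lemma norm_dualTerm (n : ℕ) (d : Fin n → ℝ) (l : Fin n → Fin n → ℝ) {a : ℂ} (ha : 0 < a.re)
    (b : Fin n → ℂ) (w : Fin n → ℤ) :
    ‖dualTerm n d l a b w‖ =
      Real.exp (π * (a⁻¹).re * (1 + ((a⁻¹).im / (a⁻¹).re) ^ 2) * triQdR n d l (fun i => (b i).re))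
      * Real.exp (-π * (a⁻¹).re * triQdR n d l
          (fun i => (w i : ℝ) + (-(b i).im - (a⁻¹).im / (a⁻¹).re * (b i).re))) := by
  have ha0 : a ≠ 0 := by rintro rfl; simp at ha
  have hρ : 0 < (a⁻¹).re := by
    rw [inv_re]; exact div_pos ha (normSq_pos.mpr ha0)
  set ρ : ℝ := (a⁻¹).re with hρdef
  set s : ℝ := (a⁻¹).im / ρ with hs
  have h1 : (-π / a : ℂ) = -((π * ρ : ℝ) : ℂ) * (1 + (s : ℂ) * I) := by
    have : (a⁻¹ : ℂ) = (ρ : ℂ) * (1 + (s : ℂ) * I) := by
      apply Complex.ext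
      · simp [hρdef]
      · simp only [mul_im, ofReal_re, add_im, one_im, ofReal_im, mul_re, I_re, mul_zero, I_im,
          mul_one, sub_self, zero_add, add_re, one_re, add_zero, hs]
        field_simp
    rw [div_eq_mul_inv, this]; push_cast; ring
  have h2 : (fun i => ((w i : ℤ) : ℂ) + I * b i)
      = fun i => (((w i : ℝ) - (b i).im : ℝ) : ℂ) + I * (((b i).re : ℝ) : ℂ) := by
    funext i
    apply Complex.ext <;> simp [sub_eq_add_neg]
  rw [dualTerm, Complex.norm_exp, ← Real.exp_add, h1, h2, mul_assoc, neg_mul, neg_re,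
    re_ofReal_mul, re_mul_triQdC]
  congr 1
  have e : (fun i => (w i : ℝ) - (b i).im - s * (b i).re)
      = fun i => (w i : ℝ) + (-(b i).im - s * (b i).re) := by
    funext i; ring
  rw [e]
  ring

/-- **Summability of the primal family.** -/
theorem summable_primalTerm (n : ℕ) (d : Fin n → ℝ) (l : Fin n → Fin n → ℝ)
    (hd : ∀ i, 0 < d i) {a : ℂ} (ha : 0 < a.re) (b : Fin n → ℂ) :
    Summable (primalTerm n d l a b) := by
  refine Summable.of_norm ?_
  refine (summable_primal_real n d l hd a.re ha (fun i => (b i).re)).congr fun x => ?_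
  rw [norm_primalTerm]

/-- **Summability of the dual family.** -/
theorem summable_dualTerm (n : ℕ) (d : Fin n → ℝ) (l : Fin n → Fin n → ℝ)
    (hd : ∀ i, 0 < d i) {a : ℂ} (ha : 0 < a.re) (b : Fin n → ℂ) :
    Summable (dualTerm n d l a b) := by
  have ha0 : a ≠ 0 := by rintro rfl; simp at ha
  have hρ : 0 < (a⁻¹).re := by
    rw [inv_re]; exact div_pos ha (normSq_pos.mpr ha0)
  obtain ⟨M, -, hM⟩ := summable_dual_real n d l hd (a⁻¹).re hρ
  refine Summable.of_norm ?_
  refine (((hM (fun i => -(b i).im - (a⁻¹).im / (a⁻¹).re * (b i).re)).1.mul_left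
    (Real.exp (π * (a⁻¹).re * (1 + ((a⁻¹).im / (a⁻¹).re) ^ 2)
      * triQdR n d l (fun i => (b i).re)))).congr fun w => ?_)
  rw [norm_dualTerm n d l ha]

end

end Fermat.Agent.S16.H944
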