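import Fermat.Agent.S16.H944.GaussOne

/-!
# S16 / WP INV (helper944): triangular Gaussian sums, real summability

A positive definite quadratic form in `n` variables is given in *triangular form*
`Q(x) = ∑ i, d i * (x i + ∑_{j > i} l i j * x j)²` with `d i > 0` (LDLᵀ decomposition); its dual
form is `Q*(v) = ∑ i, U i (v)² / d i` with `U` defined by forward substitution.  Both are defined by
recursion on `n` (peeling off the variable `0`).
-/

namespace Fermat.Agent.S16.H944

open Real

noncomputable section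

/-- the triangular quadratic form `∑ i, d i * (x i + ∑_{j>i} l i j * x j)²`, real version. -/
def triQR : (n : ℕ) → (Fin n → ℝ) → (Fin n → Fin n → ℝ) → (Fin n → ℝ) → ℝ
  | 0, _, _, _ => 0
  | n + 1, d, l, x =>
      d 0 * (x 0 + ∑ j : Fin n, l 0 j.succ * x j.succ) ^ 2
        + triQR n (fun i => d i.succ) (fun i j => l i.succ j.succ) (fun j => x j.succ)

/-- the dual of the triangular quadratic form, real version. -/
def triQdR : (n : ℕ) → (Fin n → ℝ) → (Fin n → Fin n → ℝ) → (Fin n → ℝ) → ℝ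
  | 0, _, _, _ => 0
  | n + 1, d, l, v =>
      v 0 ^ 2 / d 0
        + triQdR n (fun i => d i.succ) (fun i j => l i.succ j.succ)
            (fun j => v j.succ - l 0 j.succ * v 0)

/-- the equivalence `(x', x₀) ↦ Fin.cons x₀ x'`. -/
def consEquiv₂ (n : ℕ) : (Fin n → ℤ) × ℤ ≃ (Fin (n + 1) → ℤ) :=
  (Equiv.prodComm _ _).trans (Fin.consEquiv (fun _ : Fin (n + 1) => ℤ))

@[simp] lemma consEquiv₂_apply (n : ℕ) (p : (Fin n → ℤ) × ℤ) :
    consEquiv₂ n p = Fin.cons p.2 p.1 := rfl

/-- the equivalence `(x₀, x') ↦ Fin.cons x₀ x'`. -/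
def consEquiv₁ (n : ℕ) : ℤ × (Fin n → ℤ) ≃ (Fin (n + 1) → ℤ) :=
  Fin.consEquiv (fun _ : Fin (n + 1) => ℤ)

@[simp] lemma consEquiv₁_apply (n : ℕ) (p : ℤ × (Fin n → ℤ)) :
    consEquiv₁ n p = Fin.cons p.1 p.2 := rfl

/-- **Real summability of the primal triangular Gaussian family** (with a linear term). -/
theorem summable_primal_real : ∀ (n : ℕ) (d : Fin n → ℝ) (l : Fin n → Fin n → ℝ),
    (∀ i, 0 < d i) → ∀ α : ℝ, 0 < α → ∀ β : Fin n → ℝ,
      Summable (fun x : Fin n → ℤ =>
        Real.exp (-π * α * triQR n d l (fun i => (x i : ℝ)) + 2 * π * ∑ i, β i * (x i : ℝ)))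
  | 0, _, _, _, _, _, _ => Summable.of_finite
  | n + 1, d, l, hd, α, hα, β => by
      rw [← (consEquiv₂ n).summable_iff]
      obtain ⟨K, hK0, hK⟩ := exists_bound_gauss_shift (A := π * α * d 0)
        (by have := hd 0; positivity) (2 * π * β 0)
      have IH := summable_primal_real n (fun i => d i.succ) (fun i j => l i.succ j.succ)
        (fun i => hd i.succ) α hα (fun j => β j.succ - β 0 * l 0 j.succ)
      set G : (Fin n → ℤ) → ℝ := fun x' =>
        Real.exp (-π * α * triQR n (fun i => d i.succ) (fun i j => l i.succ j.succ)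
          (fun i => (x' i : ℝ)) + 2 * π * ∑ j, (β j.succ - β 0 * l 0 j.succ) * (x' j : ℝ)) with hG
      set c : (Fin n → ℤ) → ℝ := fun x' => ∑ j : Fin n, l 0 j.succ * (x' j : ℝ) with hc
      have hF : ∀ (x' : Fin n → ℤ) (x0 : ℤ),
          ((fun x : Fin (n + 1) → ℤ =>
            Real.exp (-π * α * triQR (n + 1) d l (fun i => (x i : ℝ))
              + 2 * π * ∑ i, β i * (x i : ℝ))) ∘ (consEquiv₂ n)) (x', x0)
          = G x' * Real.exp (-(π * α * d 0) * ((x0 : ℝ) + c x') ^ 2
              + (2 * π * β 0) * ((x0 : ℝ) + c x')) := by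
        intro x' x0
        simp only [Function.comp_apply, consEquiv₂_apply, triQR, Fin.sum_univ_succ, Fin.cons_zero,
          Fin.cons_succ, hG, hc, ← Real.exp_add]
        congr 1
        simp only [sub_mul, Finset.sum_sub_distrib]
        ring_nf
        simp only [Finset.sum_mul, Finset.mul_sum]
        ring_nf
      refine (summable_prod_of_nonneg (fun p => ?_)).mpr ⟨fun x' => ?_, ?_⟩
      · exact (Real.exp_pos _).le
      · have := (hK (c x')).1.mul_left (G x')
        refine this.congr fun x0 => ?_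
        exact (hF x' x0).symm
      · refine Summable.of_nonneg_of_le (fun x' => tsum_nonneg fun x0 => (Real.exp_pos _).le)
          (fun x' => ?_) (IH.mul_right K)
        have h1 : (∑' x0 : ℤ, ((fun x : Fin (n + 1) → ℤ =>
            Real.exp (-π * α * triQR (n + 1) d l (fun i => (x i : ℝ))
              + 2 * π * ∑ i, β i * (x i : ℝ))) ∘ (consEquiv₂ n)) (x', x0))
            = G x' * ∑' x0 : ℤ, Real.exp (-(π * α * d 0) * ((x0 : ℝ) + c x') ^ 2
              + (2 * π * β 0) * ((x0 : ℝ) + c x')) := by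
          rw [← tsum_mul_left]
          exact tsum_congr fun x0 => hF x' x0
        rw [h1]
        exact mul_le_mul_of_nonneg_left (hK (c x')).2 (Real.exp_pos _).le

/-- **Uniform real summability of the dual triangular Gaussian family** (uniform in the shift). -/
theorem summable_dual_real : ∀ (n : ℕ) (d : Fin n → ℝ) (l : Fin n → Fin n → ℝ),
    (∀ i, 0 < d i) → ∀ ρ : ℝ, 0 < ρ → ∃ M : ℝ, 0 ≤ M ∧ ∀ s : Fin n → ℝ,
      Summable (fun w : Fin n → ℤ =>
        Real.exp (-π * ρ * triQdR n d l (fun i => (w i : ℝ) + s i))) ∧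
      ∑' w : Fin n → ℤ, Real.exp (-π * ρ * triQdR n d l (fun i => (w i : ℝ) + s i)) ≤ M
  | 0, _, _, _, _, _ => ⟨1, zero_le_one, fun s => ⟨Summable.of_finite, by
      rw [tsum_fintype]; simp [triQdR]⟩⟩
  | n + 1, d, l, hd, ρ, hρ => by
      obtain ⟨K, hK0, hK⟩ := exists_bound_gauss_shift (A := π * ρ / d 0)
        (by have := hd 0; positivity) 0
      obtain ⟨M', hM'0, hM'⟩ := summable_dual_real n (fun i => d i.succ)
        (fun i j => l i.succ j.succ) (fun i => hd i.succ) ρ hρ
      refine ⟨K * M', mul_nonneg hK0 hM'0, fun s => ?_⟩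
      set f : (Fin (n + 1) → ℤ) → ℝ := fun w =>
        Real.exp (-π * ρ * triQdR (n + 1) d l (fun i => (w i : ℝ) + s i)) with hf
      set s' : ℤ → Fin n → ℝ := fun w0 j => s j.succ - l 0 j.succ * ((w0 : ℝ) + s 0) with hs'
      set g : ℤ → ℝ := fun w0 => Real.exp (-(π * ρ / d 0) * ((w0 : ℝ) + s 0) ^ 2
        + 0 * ((w0 : ℝ) + s 0)) with hg
      have hd0 : d 0 ≠ 0 := (hd 0).ne'
      have hF : ∀ (w0 : ℤ) (w' : Fin n → ℤ), (f ∘ consEquiv₁ n) (w0, w')
          = g w0 * Real.exp (-π * ρ * triQdR n (fun i => d i.succ) (fun i j => l i.succ j.succ)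
              (fun i => (w' i : ℝ) + s' w0 i)) := by
        intro w0 w'
        simp only [Function.comp_apply, consEquiv₁_apply, hf, triQdR, Fin.cons_zero,
          Fin.cons_succ, hg, hs', ← Real.exp_add]
        congr 1
        have : (fun j : Fin n => (w' j : ℝ) + s j.succ - l 0 j.succ * ((w0 : ℝ) + s 0))
            = fun i => (w' i : ℝ) + (s i.succ - l 0 i.succ * ((w0 : ℝ) + s 0)) := by
          funext j; ring
        rw [this]
        field_simp
        ring
      have h2 : ∀ w0 : ℤ, (∑' w' : Fin n → ℤ, (f ∘ consEquiv₁ n) (w0, w')) ≤ g w0 * M' := by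
        intro w0
        have h1 : (∑' w' : Fin n → ℤ, (f ∘ consEquiv₁ n) (w0, w'))
            = g w0 * ∑' w' : Fin n → ℤ, Real.exp (-π * ρ * triQdR n (fun i => d i.succ)
                (fun i j => l i.succ j.succ) (fun i => (w' i : ℝ) + s' w0 i)) := by
          rw [← tsum_mul_left]
          exact tsum_congr fun w' => hF w0 w'
        exact h1.le.trans (mul_le_mul_of_nonneg_left (hM' (s' w0)).2 (Real.exp_pos _).le)
      have hfs : Summable (f ∘ consEquiv₁ n) := by
        refine (summable_prod_of_nonneg (fun p => (Real.exp_pos _).le)).mpr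
          ⟨fun w0 => ?_, ?_⟩
        · refine ((hM' (s' w0)).1.mul_left (g w0)).congr fun w' => ?_
          exact (hF w0 w').symm
        · exact Summable.of_nonneg_of_le (fun w0 => tsum_nonneg fun w' => (Real.exp_pos _).le)
            (fun w0 => h2 w0) ((hK (s 0)).1.mul_right M')
      refine ⟨(consEquiv₁ n).summable_iff.mp hfs, ?_⟩
      rw [← (consEquiv₁ n).tsum_eq f]
      rw [show (∑' c, f (consEquiv₁ n c)) = ∑' c, (f ∘ consEquiv₁ n) c from rfl,
        hfs.tsum_prod' (fun w0 => (summable_prod_of_nonneg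
          (fun p => (Real.exp_pos _).le)).mp hfs |>.1 w0)]
      have h3 : Summable fun w0 : ℤ => ∑' w' : Fin n → ℤ, (f ∘ consEquiv₁ n) (w0, w') :=
        ((summable_prod_of_nonneg (fun p => (Real.exp_pos _).le)).mp hfs).2
      calc (∑' w0 : ℤ, ∑' w' : Fin n → ℤ, (f ∘ consEquiv₁ n) (w0, w'))
          ≤ ∑' w0 : ℤ, g w0 * M' := h3.tsum_le_tsum h2 ((hK (s 0)).1.mul_right M')
        _ = (∑' w0 : ℤ, g w0) * M' := tsum_mul_right
        _ ≤ K * M' := mul_le_mul_of_nonneg_right (hK (s 0)).2 hM'0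

end

end Fermat.Agent.S16.H944
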