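import Fermat.Agent.S16.H944.GaussTri

/-!
# S16 / WP INV (helper944): theta inversion for the Ibukiyama lattice

The Gram matrix `ibuZ p q r t` (identical to `Skel.ibuA`) has the triangular form
`2 (x₀ + x₁/2)² + (q/2) (x₁ + (2r/q) x₃)² + p s (x₂ + x₃/s)² + p/(q s) x₃²`, `s = (1+q)/2`,
so `gauss_tri` applies.  Main result: `theta_inversion_ibu`, the exact shape of
`Skel.theta_inversion` (with the definitions `thetaChar`, `qf` unfolded).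
-/

namespace Fermat.Agent.S16.H944

open Complex Real Matrix
open scoped UpperHalfPlane

noncomputable section

/-- the diagonal weights of the triangular form of the Ibukiyama Gram matrix. -/
def ibuD (p q : ℝ) : Fin 4 → ℝ := ![2, q / 2, p * ((1 + q) / 2), p / (q * ((1 + q) / 2))]

/-- the off-diagonal coefficients of the triangular form of the Ibukiyama Gram matrix. -/
def ibuL (q r : ℝ) : Fin 4 → Fin 4 → ℝ :=
  ![![0, 1 / 2, 0, 0], ![0, 0, 0, 2 * r / q], ![0, 0, 0, 1 / ((1 + q) / 2)], ![0, 0, 0, 0]]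

lemma ibuD_pos {p q : ℝ} (hp : 0 < p) (hq : 0 < q) : ∀ i, 0 < ibuD p q i := by
  intro i
  fin_cases i <;> simp [ibuD] <;> positivity

/-- the Ibukiyama Gram matrix with complex entries. -/
def ibuC (p q r t : ℂ) : Matrix (Fin 4) (Fin 4) ℂ :=
  !![2, 1, 0, 0; 1, (1 + q) / 2, 0, r; 0, 0, p * ((1 + q) / 2), p; 0, r, p, 2 * t]

/-- the Ibukiyama Gram matrix (integer entries); identical to `Skel.ibuA`. -/
def ibuZ (p q r t : ℤ) : Matrix (Fin 4) (Fin 4) ℤ :=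
  !![2, 1, 0, 0; 1, (1 + q) / 2, 0, r; 0, 0, p * ((1 + q) / 2), p; 0, r, p, 2 * t]

lemma qf_ibuC (p q r t : ℂ) (v : Fin 4 → ℂ) :
    v ⬝ᵥ (ibuC p q r t *ᵥ v) = 2 * v 0 ^ 2 + 2 * v 0 * v 1 + (1 + q) / 2 * v 1 ^ 2
      + 2 * r * v 1 * v 3 + p * ((1 + q) / 2) * v 2 ^ 2 + 2 * p * v 2 * v 3 + 2 * t * v 3 ^ 2 := by
  simp [ibuC, dotProduct, Matrix.mulVec, Fin.sum_univ_four]
  ring

lemma triQC_ibu {p q r t : ℝ} (hq : 0 < q) (h : r ^ 2 + p = q * t) (v : Fin 4 → ℂ) :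
    triQC 4 (ibuD p q) (ibuL q r) v = v ⬝ᵥ (ibuC p q r t *ᵥ v) := by
  rw [qf_ibuC]
  simp [triQC, ibuD, ibuL, Fin.sum_univ_succ]
  have hq0 : (q : ℂ) ≠ 0 := by exact_mod_cast hq.ne'
  have hq1 : (1 + q : ℂ) ≠ 0 := by
    have : (0 : ℝ) < 1 + q := by linarith
    exact_mod_cast this.ne'
  have hc : (r : ℂ) ^ 2 + p = q * t := by exact_mod_cast h
  field_simp
  linear_combination (4 * (1 + (q : ℂ)) * v 3 ^ 2) * hc

lemma triQdC_ibu {p q r t : ℝ} (hp : 0 < p) (hq : 0 < q) (h : r ^ 2 + p = q * t)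
    (v : Fin 4 → ℂ) :
    triQdC 4 (ibuD p q) (ibuL q r) (ibuC p q r t *ᵥ v) = v ⬝ᵥ (ibuC p q r t *ᵥ v) := by
  obtain rfl : p = q * t - r ^ 2 := by linarith
  rw [qf_ibuC]
  simp [triQdC, ibuD, ibuL, ibuC, Matrix.mulVec, dotProduct, Fin.sum_univ_four]
  have hp0 : ((q : ℂ) * t - (r : ℂ) ^ 2) ≠ 0 := by
    have : ((q * t - r ^ 2 : ℝ) : ℂ) ≠ 0 := by exact_mod_cast hp.ne'
    simpa using this
  have hq0 : (q : ℂ) ≠ 0 := by exact_mod_cast hq.ne'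
  have hq1 : (1 + q : ℂ) ≠ 0 := by
    have : (0 : ℝ) < 1 + q := by linarith
    exact_mod_cast this.ne'
  field_simp
  ring

lemma mul_ofReal_cpow {a : ℂ} (ha : a ≠ 0) {d : ℝ} (hd : 0 < d) (r : ℂ) :
    (a * d) ^ r = a ^ r * (d : ℂ) ^ r := by
  have hd0 : (d : ℂ) ≠ 0 := by exact_mod_cast hd.ne'
  rw [Complex.cpow_def_of_ne_zero (mul_ne_zero ha hd0), Complex.cpow_def_of_ne_zero ha,
    Complex.cpow_def_of_ne_zero hd0, Complex.log_mul_ofReal d hd a ha, ← Complex.exp_add,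
    Complex.ofReal_log hd.le]
  ring_nf

/-- the constant of the inversion formula. -/
lemma prod_ibuD_cpow {p q : ℝ} (hp : 0 < p) (hq : 0 < q) {a : ℂ} (ha : a ≠ 0) :
    ∏ i, 1 / (a * (ibuD p q i : ℂ)) ^ (1 / 2 : ℂ) = 1 / (a ^ 2 * p) := by
  have hsq : (a ^ (1 / 2 : ℂ)) ^ 2 = a := by
    have := Complex.cpow_nat_inv_pow a (n := 2) two_ne_zero
    simp
  have hd := ibuD_pos hp hq
  have key : ∀ i, (a * (ibuD p q i : ℂ)) ^ (1 / 2 : ℂ)
      = a ^ (1 / 2 : ℂ) * ((Real.sqrt (ibuD p q i) : ℝ) : ℂ) := by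
    intro i
    rw [mul_ofReal_cpow ha (hd i), Real.sqrt_eq_rpow, Complex.ofReal_cpow (hd i).le]
    push_cast
    rfl
  simp_rw [key]
  rw [Fin.prod_univ_four]
  have h4 : Real.sqrt (ibuD p q 0) * Real.sqrt (ibuD p q 1) * Real.sqrt (ibuD p q 2)
      * Real.sqrt (ibuD p q 3) = p := by
    rw [← Real.sqrt_mul (hd 0).le, ← Real.sqrt_mul (mul_pos (hd 0) (hd 1)).le,
      ← Real.sqrt_mul (mul_pos (mul_pos (hd 0) (hd 1)) (hd 2)).le]
    have : ibuD p q 0 * ibuD p q 1 * ibuD p q 2 * ibuD p q 3 = p ^ 2 := by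
      simp [ibuD]
      have hq1 : (0 : ℝ) < 1 + q := by linarith
      field_simp
    rw [this, Real.sqrt_sq hp.le]
  have h4' : ((Real.sqrt (ibuD p q 0) : ℝ) : ℂ) * (Real.sqrt (ibuD p q 1) : ℝ)
      * (Real.sqrt (ibuD p q 2) : ℝ) * (Real.sqrt (ibuD p q 3) : ℝ) = (p : ℂ) := by
    exact_mod_cast h4
  have e : 1 / (a ^ (1 / 2 : ℂ) * ((Real.sqrt (ibuD p q 0) : ℝ) : ℂ))
      * (1 / (a ^ (1 / 2 : ℂ) * ((Real.sqrt (ibuD p q 1) : ℝ) : ℂ)))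
      * (1 / (a ^ (1 / 2 : ℂ) * ((Real.sqrt (ibuD p q 2) : ℝ) : ℂ)))
      * (1 / (a ^ (1 / 2 : ℂ) * ((Real.sqrt (ibuD p q 3) : ℝ) : ℂ)))
      = 1 / (((a ^ (1 / 2 : ℂ)) ^ 2) ^ 2 * (((Real.sqrt (ibuD p q 0) : ℝ) : ℂ)
          * (Real.sqrt (ibuD p q 1) : ℝ) * (Real.sqrt (ibuD p q 2) : ℝ)
          * (Real.sqrt (ibuD p q 3) : ℝ))) := by
    rw [one_div_mul_one_div, one_div_mul_one_div, one_div_mul_one_div]
    congr 1
    ring
  rw [e, hsq, h4']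

/-! ### Matrix bookkeeping -/

lemma map_ibuZ {p q r t : ℤ} (hq2 : q % 2 = 1) :
    (ibuZ p q r t).map (Int.castRingHom ℂ) = ibuC p q r t := by
  have h2 : 2 * ((1 + q) / 2) = 1 + q := by omega
  have hσ : (((1 + q) / 2 : ℤ) : ℂ) = (1 + (q : ℂ)) / 2 := by
    have := congrArg (Int.cast : ℤ → ℂ) h2
    push_cast at this
    linear_combination this / 2
  ext i j
  fin_cases i <;> fin_cases j <;> simp [ibuZ, ibuC, hσ]

lemma ibuC_transpose (p q r t : ℂ) : (ibuC p q r t)ᵀ = ibuC p q r t := by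
  ext i j
  fin_cases i <;> fin_cases j <;> simp [ibuC]

section

variable {p : ℕ} {q r t : ℤ} {B : Matrix (Fin 4) (Fin 4) ℤ}

lemma ibuC_mul_map (hq2 : q % 2 = 1)
    (hAB : ibuZ p q r t * B = (p : ℤ) • (1 : Matrix (Fin 4) (Fin 4) ℤ)) :
    ibuC p q r t * B.map (Int.castRingHom ℂ) = (p : ℂ) • (1 : Matrix (Fin 4) (Fin 4) ℂ) := by
  have := congrArg (fun M : Matrix (Fin 4) (Fin 4) ℤ => M.map (Int.castRingHom ℂ)) hAB
  simp only [Matrix.map_mul] at this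
  rw [map_ibuZ hq2] at this
  rw [Int.cast_natCast] at this
  rw [this]
  ext i j
  simp only [Matrix.map_apply, Matrix.smul_apply, Matrix.one_apply, smul_eq_mul]
  split_ifs <;> simp

lemma map_mul_ibuC (hp : 0 < p) (hq2 : q % 2 = 1)
    (hAB : ibuZ p q r t * B = (p : ℤ) • (1 : Matrix (Fin 4) (Fin 4) ℤ)) :
    B.map (Int.castRingHom ℂ) * ibuC p q r t = (p : ℂ) • (1 : Matrix (Fin 4) (Fin 4) ℂ) := by
  have hp0 : (p : ℂ) ≠ 0 := by exact_mod_cast hp.ne'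
  have h1 : ibuC p q r t * ((p : ℂ)⁻¹ • B.map (Int.castRingHom ℂ)) = 1 := by
    rw [Matrix.mul_smul, ibuC_mul_map hq2 hAB, smul_smul, inv_mul_cancel₀ hp0, one_smul]
  have h2 := mul_eq_one_comm.mp h1
  rw [Matrix.smul_mul] at h2
  rw [← h2, smul_smul, mul_inv_cancel₀ hp0, one_smul]

lemma map_transpose_eq (hp : 0 < p) (hq2 : q % 2 = 1)
    (hAB : ibuZ p q r t * B = (p : ℤ) • (1 : Matrix (Fin 4) (Fin 4) ℤ)) :
    (B.map (Int.castRingHom ℂ))ᵀ = B.map (Int.castRingHom ℂ) := by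
  have hp0 : (p : ℂ) ≠ 0 := by exact_mod_cast hp.ne'
  set BC := B.map (Int.castRingHom ℂ) with hBC
  set AC := ibuC (p : ℂ) q r t with hAC
  have h1 : AC * BC = (p : ℂ) • 1 := ibuC_mul_map hq2 hAB
  have h2 : BCᵀ * AC = (p : ℂ) • 1 := by
    have := congrArg Matrix.transpose h1
    rwa [Matrix.transpose_mul, ibuC_transpose, Matrix.transpose_smul, Matrix.transpose_one]
      at this
  have h3 : BCᵀ * (AC * BC) = (BCᵀ * AC) * BC := (Matrix.mul_assoc _ _ _).symm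
  rw [h1, h2, Matrix.mul_smul, Matrix.smul_mul, Matrix.mul_one, Matrix.one_mul] at h3
  exact smul_right_injective _ hp0 h3

/-- the dual triangular form is the quadratic form of `B / p`. -/
lemma triQdC_ibu_eq (hp : 0 < p) (hq : 0 < q) (hq2 : q % 2 = 1)
    (hrt : r ^ 2 + (p : ℤ) = q * t)
    (hAB : ibuZ p q r t * B = (p : ℤ) • (1 : Matrix (Fin 4) (Fin 4) ℤ)) (ω : Fin 4 → ℂ) :
    triQdC 4 (ibuD p q) (ibuL q r) ω
      = (p : ℂ)⁻¹ * (ω ⬝ᵥ (B.map (Int.castRingHom ℂ) *ᵥ ω)) := by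
  have hp0 : (p : ℂ) ≠ 0 := by exact_mod_cast hp.ne'
  have hpR : (0 : ℝ) < p := by exact_mod_cast hp
  have hqR : (0 : ℝ) < q := by exact_mod_cast hq
  have hR : (r : ℝ) ^ 2 + (p : ℝ) = q * t := by exact_mod_cast hrt
  set BC := B.map (Int.castRingHom ℂ) with hBC
  set v : Fin 4 → ℂ := (p : ℂ)⁻¹ • (BC *ᵥ ω) with hv
  have hAv : ibuC ((p : ℝ) : ℂ) ((q : ℝ) : ℂ) ((r : ℝ) : ℂ) ((t : ℝ) : ℂ) *ᵥ v = ω := by
    have h1 : ibuC (p : ℂ) q r t * BC = (p : ℂ) • 1 := ibuC_mul_map hq2 hAB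
    push_cast
    rw [hv, Matrix.mulVec_smul, Matrix.mulVec_mulVec, h1, Matrix.smul_mulVec,
      Matrix.one_mulVec, smul_smul, inv_mul_cancel₀ hp0, one_smul]
  have := triQdC_ibu hpR hqR hR v
  rw [hAv] at this
  rw [this, hv, smul_dotProduct, smul_eq_mul, dotProduct_comm]

lemma cast_dot_mulVec (M : Matrix (Fin 4) (Fin 4) ℤ) (x y : Fin 4 → ℤ) :
    ((x ⬝ᵥ M *ᵥ y : ℤ) : ℂ)
      = (fun i => (x i : ℂ)) ⬝ᵥ (M.map (Int.castRingHom ℂ) *ᵥ (fun i => (y i : ℂ))) := by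
  simp only [dotProduct, Matrix.mulVec, Matrix.map_apply, eq_intCast]
  push_cast
  rfl

lemma dot_symm_of_transpose {M : Matrix (Fin 4) (Fin 4) ℂ} (hM : Mᵀ = M) (u v : Fin 4 → ℂ) :
    u ⬝ᵥ (M *ᵥ v) = v ⬝ᵥ (M *ᵥ u) := by
  rw [Matrix.dotProduct_mulVec, ← Matrix.mulVec_transpose, hM, dotProduct_comm]

/-- **Theta inversion for the Ibukiyama lattice** (`Skel.theta_inversion` with `thetaChar`, `qf`
unfolded; `ibuZ = Skel.ibuA`, and only `A * B = p` is used from `IsGoodLattice`). -/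
theorem theta_inversion_ibu (hp : 0 < p) (hq : 0 < q) (hq2 : q % 2 = 1)
    (hrt : r ^ 2 + (p : ℤ) = q * t)
    (hAB : ibuZ p q r t * B = (p : ℤ) • (1 : Matrix (Fin 4) (Fin 4) ℤ))
    (y : Fin 4 → ℤ) (z : ℍ) :
    ∑' x : Fin 4 → ℤ,
      cexp (π * I * ((ModularGroup.S • z : ℍ) : ℂ) *
        (((x ⬝ᵥ (ibuZ p q r t).mulVec x : ℤ) : ℂ) + 2 * ((x ⬝ᵥ y : ℤ) : ℂ)
          + ((y ⬝ᵥ B.mulVec y : ℤ) : ℂ) / p))
      = -(z : ℂ) ^ 2 / p * ∑' w : Fin 4 → ℤ,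
          cexp (π * I * z * (((w ⬝ᵥ B.mulVec w : ℤ) : ℂ) / p)
            + 2 * π * I * (((w ⬝ᵥ B.mulVec y : ℤ) : ℂ) / p)) := by
  have hp0 : (p : ℂ) ≠ 0 := by exact_mod_cast hp.ne'
  have hpR : (0 : ℝ) < p := by exact_mod_cast hp
  have hqR : (0 : ℝ) < q := by exact_mod_cast hq
  have hR : (r : ℝ) ^ 2 + (p : ℝ) = q * t := by exact_mod_cast hrt
  have hz0 : (z : ℂ) ≠ 0 := UpperHalfPlane.ne_zero z
  set τ : ℂ := ((ModularGroup.S • z : ℍ) : ℂ) with hτ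
  have hτz : τ = (-(z : ℂ))⁻¹ := by rw [hτ, UpperHalfPlane.modular_S_smul]
  have hτim : 0 < τ.im := (ModularGroup.S • z).im_pos
  have hτ0 : τ ≠ 0 := by rw [hτz]; exact inv_ne_zero (neg_ne_zero.mpr hz0)
  set a : ℂ := -I * τ with ha_def
  have ha : 0 < a.re := by simp [ha_def, hτim]
  have ha0 : a ≠ 0 := by rintro h; rw [h] at ha; simp at ha
  set b : Fin 4 → ℂ := fun i => I * τ * (y i : ℂ) with hb
  set BC := B.map (Int.castRingHom ℂ) with hBC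
  have hBsymm : BCᵀ = BC := map_transpose_eq hp hq2 hAB
  -- the three integers appearing
  set Y : ℂ := ((y ⬝ᵥ B.mulVec y : ℤ) : ℂ) with hY
  -- step A
  have hA : ∀ x : Fin 4 → ℤ,
      cexp (π * I * τ * (((x ⬝ᵥ (ibuZ p q r t).mulVec x : ℤ) : ℂ) + 2 * ((x ⬝ᵥ y : ℤ) : ℂ)
          + Y / p))
        = cexp (π * I * τ * (Y / p)) * primalTerm 4 (ibuD p q) (ibuL q r) a b x := by
    intro x
    rw [primalTerm, ← Complex.exp_add, triQC_ibu hqR hR, cast_dot_mulVec, map_ibuZ hq2]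
    congr 1
    have e1 : ((x ⬝ᵥ y : ℤ) : ℂ) = ∑ i, (y i : ℂ) * (x i : ℂ) := by
      simp only [dotProduct]; push_cast
      exact Finset.sum_congr rfl fun i _ => mul_comm _ _
    have e2 : ∑ i, b i * (x i : ℂ) = I * τ * ∑ i, (y i : ℂ) * (x i : ℂ) := by
      rw [Finset.mul_sum]
      exact Finset.sum_congr rfl fun i _ => by simp only [hb]; ring
    rw [e1, e2]
    push_cast
    ring
  -- step C
  have hC : ∀ w : Fin 4 → ℤ,
      cexp (π * I * τ * (Y / p)) * dualTerm 4 (ibuD p q) (ibuL q r) a b w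
        = cexp (π * I * z * (((w ⬝ᵥ B.mulVec w : ℤ) : ℂ) / p)
            + 2 * π * I * (((w ⬝ᵥ B.mulVec y : ℤ) : ℂ) / p)) := by
    intro w
    rw [dualTerm, ← Complex.exp_add, triQdC_ibu_eq hp hq hq2 hrt hAB]
    congr 1
    have eω : (fun i => (w i : ℂ) + I * b i)
        = (fun i => (w i : ℂ)) + (-τ) • (fun i => (y i : ℂ)) := by
      funext i
      simp only [hb, Pi.add_apply, Pi.smul_apply, smul_eq_mul]
      linear_combination (τ * (y i : ℂ)) * I_mul_I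
    rw [eω, Matrix.mulVec_add, Matrix.mulVec_smul, dotProduct_add, add_dotProduct,
      add_dotProduct, dotProduct_smul, dotProduct_smul, smul_dotProduct, smul_dotProduct,
      dot_symm_of_transpose hBsymm (fun i => (y i : ℂ)) (fun i => (w i : ℂ)),
      ← hBC, ← cast_dot_mulVec, ← cast_dot_mulVec, ← cast_dot_mulVec, ← hY]
    simp only [smul_eq_mul]
    set W : ℂ := ((w ⬝ᵥ B.mulVec w : ℤ) : ℂ)
    set X : ℂ := ((w ⬝ᵥ B.mulVec y : ℤ) : ℂ)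
    rw [ha_def, hτz]
    have hI : (I : ℂ) ^ 2 = -1 := I_sq
    have hI0 : (I : ℂ) ≠ 0 := I_ne_zero
    field_simp
    ring_nf
    rw [hI]
    ring
  -- assembly
  have hconst : ∏ i, 1 / (a * (ibuD p q i : ℂ)) ^ (1 / 2 : ℂ) = -(z : ℂ) ^ 2 / p := by
    rw [prod_ibuD_cpow hpR hqR ha0, ha_def, hτz]
    have hI : (I : ℂ) ^ 2 = -1 := I_sq
    push_cast
    field_simp
    ring_nf
    rw [hI]
    ring
  simp_rw [hA]
  rw [tsum_mul_left, gauss_tri 4 _ _ (ibuD_pos hpR hqR) a ha b, hconst, ← mul_assoc,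
    mul_comm (cexp _), mul_assoc, ← tsum_mul_left]
  congr 1
  exact tsum_congr hC

end

end

end Fermat.Agent.S16.H944
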